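import Fermat.Agent.S26.CubeFormal

/-!
# Row S26, block CUBE, leaf C3 (subtask 544): `inH_of_curveCube`  (helper120)

The image of a `K`-point of a pointed smooth proper curve `Γ → A` lies in `H_M`.

* `theta_natural`  : `Θ` commutes with base change of the scheme of points;
* `theta_one_mid`, `theta_one_right` : the two other faces `Θ(a, 0, c) = 0`, `Θ(a, b, 0) = 0`;
* `inH_of_curveCube` : the exact statement of `Skel/CubeSkel.lean` (architect helper987);
* `inH_all` : `H_M = A(K)` from `CurveCube` and `CurvesGenerate`.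
-/

set_option autoImplicit false
universe u

open CategoryTheory CategoryTheory.Limits AlgebraicGeometry NeronModelInfra GoodReductionJacobian

namespace Fermat.Agent.S26.H120

noncomputable section

variable {K : Type u} [Field K] {X : AbVar K} {T : PicTheory.{u}}

/-- Pull-back of a class along a pulled-back point. -/
theorem map_map_point {S S' : Scheme.{u}} {s : S ⟶ Spec (CommRingCat.of K)}
    {s' : S' ⟶ Spec (CommRingCat.of K)} (ψ : S' ⟶ S) (hψ : ψ ≫ s = s') (a : X.SPt s)
    (M : T.Pic X.A) :
    T.map ψ (T.map a.1 M) = T.map (schemeHomOverComp ψ hψ a).1 M := by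
  rw [schemeHomOverComp_coe, T.map_comp]

/-- `Θ` is natural in the scheme of points. -/
theorem theta_natural {S S' : Scheme.{u}} (s : S ⟶ Spec (CommRingCat.of K))
    (s' : S' ⟶ Spec (CommRingCat.of K)) (ψ : S' ⟶ S) (hψ : ψ ≫ s = s') (a b c : X.SPt s)
    (M : T.Pic X.A) :
    T.map ψ (X.theta T s a b c M) =
      X.theta T s' (schemeHomOverComp ψ hψ a) (schemeHomOverComp ψ hψ b)
        (schemeHomOverComp ψ hψ c) M := by
  simp only [AbVar.theta, map_add, map_sub, map_map_point ψ hψ, X.law.mul_natural s s' ψ hψ]

/-- Face: `Θ(a, 0, c; M) = 0`. -/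
theorem theta_one_mid (hT : T.IsLocal) {S : Scheme.{u}} (s : S ⟶ Spec (CommRingCat.of K))
    (a c : X.SPt s) (M : T.Pic X.A) : X.theta T s a (X.law.one s) c M = 0 := by
  rw [AbVar.theta, X.law.mul_one, X.law.one_mul, map_one_eq_zero hT]
  abel

/-- Face: `Θ(a, b, 0; M) = 0`. -/
theorem theta_one_right (hT : T.IsLocal) {S : Scheme.{u}} (s : S ⟶ Spec (CommRingCat.of K))
    (a b : X.SPt s) (M : T.Pic X.A) : X.theta T s a b (X.law.one s) M = 0 := by
  rw [AbVar.theta, X.law.mul_one, X.law.mul_one, X.law.mul_one, map_one_eq_zero hT]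
  abel

/-- A point which factors through the zero point is the unit. -/
theorem eq_one_of_coe {S : Scheme.{u}} (s : S ⟶ Spec (CommRingCat.of K)) (a : X.SPt s)
    (h : a.1 = s ≫ X.zero.1) : a = X.law.one s := by
  rw [← AbVar.const_one]
  exact Subtype.ext h

section Universal

variable (X) (Γ : X.PtdCurve)

/-- The structure map of `C × (A × A)`. -/
abbrev uStr : pullback Γ.str (prodStr X.str X.str) ⟶ Spec (CommRingCat.of K) :=
  prodStr Γ.str (prodStr X.str X.str)

/-- The point `ι ∘ p₁` of `A` with values in `C × (A × A)`. -/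
def uA : X.SPt (uStr X Γ) :=
  ⟨pullback.fst Γ.str (prodStr X.str X.str) ≫ Γ.ι, by
    rw [Category.assoc, Γ.ι_str]⟩

/-- The point `p₂` of `A` with values in `C × (A × A)`. -/
def uB : X.SPt (uStr X Γ) :=
  ⟨pullback.snd Γ.str (prodStr X.str X.str) ≫ pullback.fst X.str X.str, by
    rw [Category.assoc]
    exact (pullback.condition (f := Γ.str) (g := prodStr X.str X.str)).symm⟩

/-- The point `p₃` of `A` with values in `C × (A × A)`. -/
def uC : X.SPt (uStr X Γ) :=
  ⟨pullback.snd Γ.str (prodStr X.str X.str) ≫ pullback.snd X.str X.str, by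
    rw [Category.assoc, ← pullback.condition (f := X.str) (g := X.str)]
    exact (pullback.condition (f := Γ.str) (g := prodStr X.str X.str)).symm⟩

/-- The universal cube class on `C × (A × A)`. -/
def uTheta (M : T.Pic X.A) : T.Pic (pullback Γ.str (prodStr X.str X.str)) :=
  X.theta T (uStr X Γ) (uA X Γ) (uB X Γ) (uC X Γ) M

end Universal

/-- **C3.** The image of a `K`-point of a pointed curve lies in `H_M`. -/
theorem inH_of_curveCube [IsAlgClosed K] (hT : T.IsLocal) (hC1 : Stmt.CurveCube T K)
    (hGI : ∀ X : AbVar K, GeometricallyIntegral X.str)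
    (X : AbVar K) (M : T.Pic X.A) (Γ : X.PtdCurve) (p : KPt Γ.str) :
    X.InH T M (Γ.image p) := by
  have := Γ.proper
  have := Γ.smooth
  have := Γ.integral
  have : IsProper X.str := X.bundle.proper
  have : GeometricallyIntegral X.str := hGI X
  -- the universal class vanishes
  have hN : uTheta (T := T) X Γ M = 0 := by
    refine hC1 Γ.C Γ.str Γ.base X.A X.A X.str X.str X.zero X.zero (uTheta X Γ M) ?_ ?_ ?_
    · -- the face `c₀ × (A × A)`
      rw [uTheta, theta_natural (uStr X Γ) _ _ rfl]
      have h : schemeHomOverComp (inr Γ.str (prodStr X.str X.str) Γ.base) rfl (uA X Γ) =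
          X.law.one _ := by
        apply eq_one_of_coe
        simp only [schemeHomOverComp_coe, uA, inr, uStr, prodStr, pullback.lift_fst_assoc,
          Category.assoc, Γ.base_zero]
        rw [← Category.assoc Γ.base.1, Γ.base.2, Category.id_comp]
      rw [h]
      exact AbVar.theta_one_left hT _ _ _ M
    · -- the face `C × (0 × A)`
      rw [uTheta, theta_natural (uStr X Γ) _ _ rfl]
      have h : schemeHomOverComp (prodMapRight Γ.str X.str (prodStr X.str X.str)
          (inr X.str X.str X.zero) (inr_prodStr X.str X.str X.zero)) rfl (uB X Γ) =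
          X.law.one _ := by
        apply eq_one_of_coe
        simp only [schemeHomOverComp_coe, uB, inr, uStr, prodStr, prodMapRight,
          pullback.lift_fst, pullback.lift_fst_assoc, pullback.map, Category.assoc,
          pullback.lift_snd_assoc, Category.comp_id]
        rw [← Category.assoc, ← Category.assoc,
          pullback.condition (f := Γ.str) (g := X.str)]
      rw [h]
      exact theta_one_mid hT _ _ _ M
    · -- the face `C × (A × 0)`
      rw [uTheta, theta_natural (uStr X Γ) _ _ rfl]
      have h : schemeHomOverComp (prodMapRight Γ.str X.str (prodStr X.str X.str)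
          (inl X.str X.str X.zero) (inl_prodStr X.str X.str X.zero)) rfl (uC X Γ) =
          X.law.one _ := by
        apply eq_one_of_coe
        simp only [schemeHomOverComp_coe, uC, inl, uStr, prodStr, prodMapRight,
          pullback.lift_fst_assoc, pullback.map, Category.assoc,
          pullback.lift_snd, pullback.lift_snd_assoc, Category.comp_id]
        rw [← Category.assoc, ← Category.assoc,
          pullback.condition (f := Γ.str) (g := X.str)]
      rw [h]
      exact theta_one_right hT _ _ _ M
  -- pull back along `(p, b, c) : S ⟶ C × (A × A)`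
  intro S s b c
  have hbc : b.1 ≫ X.str = c.1 ≫ X.str := by rw [b.2, c.2]
  have hcond : (s ≫ p.1) ≫ Γ.str = pullback.lift b.1 c.1 hbc ≫ prodStr X.str X.str := by
    rw [Category.assoc, p.2, Category.comp_id, pullback.lift_fst_assoc, b.2]
  set ψ : S ⟶ pullback Γ.str (prodStr X.str X.str) :=
    pullback.lift (s ≫ p.1) (pullback.lift b.1 c.1 hbc) hcond with hψdef
  have hψ : ψ ≫ uStr X Γ = s := by
    rw [hψdef, pullback.lift_fst_assoc, Category.assoc, p.2, Category.comp_id]
  have key := theta_natural (T := T) (uStr X Γ) s ψ hψ (uA X Γ) (uB X Γ) (uC X Γ) M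
  have ha : schemeHomOverComp ψ hψ (uA X Γ) = X.const s (Γ.image p) :=
    Subtype.ext (by
      simp only [schemeHomOverComp_coe, uA, hψdef, pullback.lift_fst_assoc, Category.assoc,
        AbVar.const_coe, AbVar.PtdCurve.image])
  have hb : schemeHomOverComp ψ hψ (uB X Γ) = b :=
    Subtype.ext (by
      simp only [schemeHomOverComp_coe, uB, hψdef, pullback.lift_snd_assoc, pullback.lift_fst])
  have hc : schemeHomOverComp ψ hψ (uC X Γ) = c :=
    Subtype.ext (by
      simp only [schemeHomOverComp_coe, uC, hψdef, pullback.lift_snd_assoc, pullback.lift_snd])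
  rw [ha, hb, hc] at key
  rw [← key]
  have : X.theta T (uStr X Γ) (uA X Γ) (uB X Γ) (uC X Γ) M = 0 := hN
  rw [this, map_zero]

/-- C2 + C3 + C4: `H_M = A(K)`. -/
theorem inH_all [IsAlgClosed K] (hT : T.IsLocal) (hC1 : Stmt.CurveCube T K)
    (hGI : ∀ X : AbVar K, GeometricallyIntegral X.str) (hGen : Stmt.CurvesGenerate K)
    (X : AbVar K) (M : T.Pic X.A) (x : X.Pt) : X.InH T M x :=
  hGen X (X.InH T M) (AbVar.inH_zero hT M) (fun _ _ hx hy => AbVar.inH_mul hT M hx hy)
    (fun _ hx => AbVar.inH_neg hT M hx) (fun Γ p => inH_of_curveCube hT hC1 hGI X M Γ p) x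

end

end Fermat.Agent.S26.H120
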