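import Fermat.Agent.S26.C4.Spec

/-!
# Row S26, block CUBE, leaf C4c (subtask 514), part "chains"  (helper120)

* `wellFoundedLT_primeSpectrum` : primes of a noetherian ring satisfy the descending chain
  condition (finite heights);
* `wellFoundedGT_irreducibleCloseds` : ascending chain condition for the irreducible closed
  subsets of a locally noetherian scheme;
* `c4cChain : C4.Stmt.C4cChain K` (exact shape of `C4/Spec.lean`).
-/

set_option autoImplicit false
universe u

open CategoryTheory AlgebraicGeometry TopologicalSpace

namespace Fermat.Agent.S26.H120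

/-- Primes of a noetherian ring satisfy the descending chain condition. -/
theorem wellFoundedLT_primeSpectrum (R : Type*) [CommRing R] [IsNoetherianRing R] :
    WellFoundedLT (PrimeSpectrum R) := by
  have hf : StrictMono (fun p : PrimeSpectrum R => p.asIdeal.height) := by
    intro p q hpq
    exact Ideal.height_strict_mono_of_isPrime_of_isPrime (by exact hpq)
  exact hf.wellFoundedLT

/-- In a quasi-sober space, the irreducible closed subsets satisfy the ascending chain
condition as soon as every point has an open neighbourhood `U` in which every "generising"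
sequence is stationary. -/
theorem wellFoundedGT_irreducibleCloseds_of_local {X : Type*} [TopologicalSpace X]
    [QuasiSober X]
    (h : ∀ x : X, ∃ U : Set X, IsOpen U ∧ x ∈ U ∧
      ∀ y : ℕ → X, (∀ n, y n ∈ U) → (∀ n, y (n + 1) ⤳ y n) → ∃ n, ∀ m, n ≤ m → y n = y m) :
    WellFoundedGT (IrreducibleCloseds X) := by
  rw [wellFoundedGT_iff_monotone_chain_condition]
  intro a
  -- generic points
  let y : ℕ → X := fun n => (a n).isIrreducible'.genericPoint
  have hy : ∀ n, (a n : Set X) = closure {y n} := fun n => by
    have h1 := (a n).isIrreducible'.isGenericPoint_genericPoint_closure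
    rw [isGenericPoint_def, (a n).isClosed'.closure_eq] at h1
    exact h1.symm
  have hspec : ∀ n m, n ≤ m → y m ⤳ y n := by
    intro n m hnm
    rw [specializes_iff_mem_closure, ← hy m]
    have h1 : y n ∈ (a n : Set X) := by rw [hy n]; exact subset_closure rfl
    exact a.mono hnm h1
  obtain ⟨U, hU, hxU, hchain⟩ := h (y 0)
  have hmem : ∀ n, y n ∈ U := fun n => (hspec 0 n (Nat.zero_le n)).mem_open hU hxU
  obtain ⟨n, hn⟩ := hchain y hmem (fun n => hspec n (n + 1) (Nat.le_succ n))
  refine ⟨n, fun m hm => ?_⟩
  apply SetLike.coe_injective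
  rw [hy n, hy m, hn m hm]

/-- Generising chains in the spectrum of a noetherian ring are stationary. -/
theorem primeSpectrum_chain (R : Type*) [CommRing R] [IsNoetherianRing R]
    (y : ℕ → PrimeSpectrum R) (hy : ∀ n, y (n + 1) ⤳ y n) :
    ∃ n, ∀ m, n ≤ m → y n = y m := by
  have := wellFoundedLT_primeSpectrum R
  have hanti : Antitone y := antitone_nat_of_succ_le fun n =>
    (PrimeSpectrum.le_iff_specializes _ _).mpr (hy n)
  exact WellFoundedLT.antitone_chain_condition hanti

/-- **Ascending chain condition** for the irreducible closed subsets of a locally noetherian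
scheme. -/
theorem wellFoundedGT_irreducibleCloseds (X : Scheme.{u}) [IsLocallyNoetherian X] :
    WellFoundedGT (IrreducibleCloseds X) := by
  apply wellFoundedGT_irreducibleCloseds_of_local
  intro x
  obtain ⟨W, hW, hxW, -⟩ := exists_isAffineOpen_mem_and_subset (X := X) (x := x) (U := ⊤) trivial
  refine ⟨W, W.2, hxW, fun y hyW hy => ?_⟩
  have hN : IsNoetherianRing Γ(X, W) := IsLocallyNoetherian.component_noetherian ⟨W, hW⟩
  have hemb : Topology.IsOpenEmbedding hW.fromSpec := hW.fromSpec.isOpenEmbedding
  have hrange : ∀ n, y n ∈ Set.range hW.fromSpec := fun n => by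
    rw [hW.range_fromSpec]; exact hyW n
  choose p hp using hrange
  have hps : ∀ n, p (n + 1) ⤳ p n := fun n => by
    rw [← hemb.isInducing.specializes_iff, hp, hp]
    exact hy n
  obtain ⟨n, hn⟩ := primeSpectrum_chain Γ(X, W) p hps
  exact ⟨n, fun m hm => by rw [← hp n, ← hp m, hn m hm]⟩

/-- **C4c, chains** (exact shape of `C4/Spec.lean`). -/
theorem c4cChain (K : Type u) [Field K] [IsAlgClosed K] : C4.Stmt.C4cChain K := fun X => by
  have : Smooth X.str := X.bundle.smooth
  have : IsLocallyNoetherian X.A := LocallyOfFiniteType.isLocallyNoetherian X.str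
  exact wellFoundedGT_irreducibleCloseds X.A

end Fermat.Agent.S26.H120
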